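/-
S55 (Program C), package C8, leaf (TOWER-INFRES) (helper94; tasks id 453):
`towerInfResStatement : H29.TowerInfResStatement` — exactness of
`H²(Gal(E/k), Eˣ) → H²(Gal(K/k), Kˣ) → H²(Gal(K/E), Kˣ)` in the middle, in the presentation of
`H88.towerOf k E K`: helper84's `H2InfRes_exact_apply` (C1-c) with Hilbert 90 for the subgroup
`Gal(K/E) ≤ Gal(K/k)` (helper15's `isZero_H1_res_subtype`).
-/
import Mathlib
import Fermat.Agent.S55.H29.C8Hasse
import Fermat.Agent.S55.H84.InfRes2
import Fermat.Agent.S55.H15.Hilbert90Sub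

set_option autoImplicit false

open CategoryTheory groupCohomology Rep

namespace Fermat.Agent.S55.H94

open Fermat.Agent.S55.H88 Fermat.Agent.S55.H29

/-- **Leaf (TOWER-INFRES)**, verbatim. -/
theorem towerInfResStatement : TowerInfResStatement := by
  intro k E K _ _ _ _ _ _ _ _ _ _ _ _ _ α hα
  exact Fermat.Agent.S55.H84.H2InfRes_exact_apply (Rep.ofAlgebraAutOnUnits k K)
    (fixSubgroup k E K) (Fermat.Agent.S55.H15.isZero_H1_res_subtype (fixSubgroup k E K)) α hα

end Fermat.Agent.S55.H94
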