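/-
S55 (Program C), package C8, leaf (COMPOSITUM) (helper94; tasks id 504):
`compositumStatement : H29.CompositumStatement` — two Galois extensions `K/k`, `E/k` of number
fields have a common Galois overfield `L` (the compositum of their images in an algebraic
closure of `k`).  Mathlib only (+ the statement file).
-/
import Mathlib
import Fermat.Agent.S55.H29.C8Rec

set_option autoImplicit false

namespace Fermat.Agent.S55.H94

open IntermediateField

section Compositum

variable (k K E : Type) [Field k] [NumberField k] [Field K] [NumberField K] [Field E]
  [NumberField E] [Algebra k K] [Algebra k E]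

/-- A `k`-embedding of a number field over `k` into the algebraic closure of `k`. -/
noncomputable def embAC (M : Type) [Field M] [NumberField M] [Algebra k M] :
    M →ₐ[k] AlgebraicClosure k :=
  haveI : Module.Finite k M := Module.Finite.of_restrictScalars_finite ℚ k M
  IsAlgClosed.lift

/-- The compositum of the images of `K` and `E` in the algebraic closure of `k`. -/
noncomputable def compositum : IntermediateField k (AlgebraicClosure k) :=
  (embAC k K).fieldRange ⊔ (embAC k E).fieldRange

theorem embAC_mem_left (x : K) : embAC k K x ∈ compositum k K E :=
  (le_sup_left : (embAC k K).fieldRange ≤ compositum k K E) ⟨x, rfl⟩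

theorem embAC_mem_right (x : E) : embAC k E x ∈ compositum k K E :=
  (le_sup_right : (embAC k E).fieldRange ≤ compositum k K E) ⟨x, rfl⟩

end Compositum

/-- **Leaf (COMPOSITUM)**, verbatim. -/
theorem compositumStatement : Fermat.Agent.S55.H29.CompositumStatement := by
  intro k K E _ _ _ _ _ _ _ _ _ _
  classical
  have hfK : Module.Finite k K := Module.Finite.of_restrictScalars_finite ℚ k K
  have hfE : Module.Finite k E := Module.Finite.of_restrictScalars_finite ℚ k E
  -- the two images are finite and normal over `k`
  have hnK : Normal k (embAC k K).fieldRange :=
    Normal.of_algEquiv (AlgEquiv.ofInjectiveField (embAC k K))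
  have hnE : Normal k (embAC k E).fieldRange :=
    Normal.of_algEquiv (AlgEquiv.ofInjectiveField (embAC k E))
  have hdK : FiniteDimensional k (embAC k K).fieldRange :=
    Module.Finite.equiv (AlgEquiv.ofInjectiveField (embAC k K)).toLinearEquiv
  have hdE : FiniteDimensional k (embAC k E).fieldRange :=
    Module.Finite.equiv (AlgEquiv.ofInjectiveField (embAC k E)).toLinearEquiv
  have hnL : Normal k (compositum k K E) := IntermediateField.normal_sup k _ _ _
  have hdL : FiniteDimensional k (compositum k K E) :=
    IntermediateField.finiteDimensional_sup _ _
  have hcL : CharZero (compositum k K E) :=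
    charZero_of_injective_algebraMap (algebraMap k (compositum k K E)).injective
  have hQL : FiniteDimensional ℚ (compositum k K E) := Module.Finite.trans k _
  have hNF : NumberField (compositum k K E) := ⟨⟩
  let fK : K →+* compositum k K E :=
    (embAC k K : K →+* AlgebraicClosure k).codRestrict (compositum k K E).toSubring
      (embAC_mem_left k K E)
  let fE : E →+* compositum k K E :=
    (embAC k E : E →+* AlgebraicClosure k).codRestrict (compositum k K E).toSubring
      (embAC_mem_right k K E)
  let aK : Algebra K (compositum k K E) := fK.toAlgebra
  let aE : Algebra E (compositum k K E) := fE.toAlgebra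
  have tK : IsScalarTower k K (compositum k K E) :=
    IsScalarTower.of_algebraMap_eq fun x => Subtype.ext ((embAC k K).commutes x).symm
  have tE : IsScalarTower k E (compositum k K E) :=
    IsScalarTower.of_algebraMap_eq fun x => Subtype.ext ((embAC k E).commutes x).symm
  exact ⟨compositum k K E, inferInstance, hNF, inferInstance, aK, aE, tK, tE, ⟨⟩⟩

end Fermat.Agent.S55.H94
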