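/-
S55 (Program C), package C8, assembly (REC-ASM = R2) (helper94; tasks id 505):
`recStatement_of_leaves` — reciprocity `H29.RecStatement NFLayer p` for the `p`-primary classes
of all finite Galois layers of number fields, from the Hasse principle (B1), the cyclic
cyclotomic reciprocity leaf, the existence of cyclic cyclotomic layers with large local degrees,
the compositum and the tower / inflation leaves.

For `α ∈ H²(Gal(K/k), Kˣ)` with `p ^ c • α = 0`: `T` := the (finite) support of the local
invariants of `α`; `E/k` cyclic cyclotomic with `p ^ c ∣ [E_w : k_v]` on `T` and `m` prime to the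
residue characteristics of `T`; `L ⊇ K, E` Galois over `k`; then `H29.rec_of_split` with
`I := inflOf k K L`, `τ := towerOf k E L`, `R := {v | v.1 ∣ m}`.
-/
import Mathlib
import Fermat.Agent.S55.H29.C8Rec

set_option autoImplicit false

open CategoryTheory groupCohomology Rep

namespace Fermat.Agent.S55.H94

open Fermat.Agent.S55.H88 Fermat.Agent.S55.H66 Fermat.Agent.S55.H29

attribute [local instance] Fermat.Agent.S55.H88.factOfPrimes

/-- The `p`-primary Hasse principle for the layer `L/E` in the presentation of
`H88.subTowerOf k E L`, from the Hasse principle for `layerOf E L`. -/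
theorem sub_hasseP {p : ℕ} (hHasse : HassePStatement NFLayer p) (hSubInj : SubH2InjStatement)
    (k E L : Type) [Field k] [NumberField k] [Field E] [NumberField E] [Field L] [NumberField L]
    [Algebra k E] [Algebra E L] [Algebra k L] [IsScalarTower k E L] [IsGalois k L] :
    (subTowerOf k E L).sub.HasseP p := by
  have : IsGalois E L := IsGalois.tower_top_of_isGalois k E L
  intro β hβ hloc
  have h1 : (layerOf E L).HasseP p :=
    hHasse _ ⟨E, L, inferInstance, inferInstance, inferInstance, inferInstance, inferInstance,
      inferInstance, rfl⟩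
  have h2 : subH2 k E L β = 0 := by
    refine h1 _ ?_ (fun w => hloc w)
    obtain ⟨c, hc⟩ := hβ
    have h3 : subH2 k E L (p ^ c • β) = 0 := (congrArg (subH2 k E L) hc).trans (map_zero _)
    exact ⟨c, (map_nsmul (subH2 k E L) (p ^ c) β).symm.trans h3⟩
  exact hSubInj k E L (h2.trans (map_zero (subH2 k E L)).symm)

/-- **Assembly (R2) of reciprocity (export B2)** for the class of all finite Galois layers of
number fields. -/
theorem recStatement_of_leaves {p : ℕ} (hp : p.Prime) (hp2 : p ≠ 2)
    (hHasse : HassePStatement NFLayer p) (hCR : CycloRecStatement p)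
    (hCE : CycloLayerExistsStatement p) (hComp : CompositumStatement) (hFin : LinvFinStatement)
    (hInfl : InflCompatStatement) (hSub : SubCompatStatement) (hQuot : QuotInfCompatStatement)
    (hIR : TowerInfResStatement) (hSubInj : SubH2InjStatement) (hLDQ : LocDegQuotStatement) :
    RecStatement NFLayer p := by
  refine rec_of_split NFLayer (CycloLayer p) p (cycRec_of hp hp2 hCR) ?_
  rintro ℓ ⟨k, K, _, _, _, _, _, _, rfl⟩ α ⟨c, hc⟩
  classical
  have hfin := hFin k K α
  obtain ⟨m, E, F, _, _, _, _, _, _, _, _, _, _, _, hm, hpm, hn, hTm, hTdeg⟩ :=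
    hCE hp hp2 k hfin.toFinset c
  obtain ⟨L, _, _, _, _, _, _, _, _⟩ := hComp k K E
  have : FiniteDimensional k L := Module.Finite.of_restrictScalars_finite ℚ k L
  have hI : (inflOf k K L).Compat := hInfl k K L
  have key : ∀ v : FinPlace k,
      (layerOf k L).linv v ((inflOf k K L).map α) = (layerOf k K).linv v α := fun v => hI v α
  have hT : ∀ v : FinPlace k, v ∈ hfin.toFinset ↔ (layerOf k K).linv v α ≠ 0 := fun v =>
    (Set.Finite.mem_toFinset hfin).trans Function.mem_support
  refine ⟨layerOf k L, inflOf k K L, towerOf k E L, {v : FinPlace k | (v.1 : ℕ) ∣ m}, hI,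
    hSub k E L, hQuot k E L, sub_hasseP hHasse hSubInj k E L, hIR k E L, ?_, ?_, ?_⟩
  · exact ⟨k, E, F, inferInstance, inferInstance, inferInstance, inferInstance, inferInstance,
      inferInstance, inferInstance, inferInstance, inferInstance, inferInstance, inferInstance,
      inferInstance, m, inferInstance, quotH2 k E L, Equiv.refl _, hm, hpm, hn,
      fun v γ => rfl, fun v hv => hv⟩
  · intro w
    show w.locDeg k • (layerOf k L).linv (w.below k) ((inflOf k K L).map α) = 0
    rw [key]
    by_cases hv : (layerOf k K).linv (w.below k) α = 0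
    · rw [hv, smul_zero]
    · obtain ⟨d, hd⟩ := hTdeg _ ((hT _).2 hv)
      rw [← hLDQ k E w, hd, mul_comm, mul_smul, ← map_nsmul, hc, map_zero, smul_zero]
  · intro v hv
    refine (key v).trans ?_
    by_contra h
    exact hTm v ((hT v).2 h) hv

end Fermat.Agent.S55.H94
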