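/-
S55 (Program C), package C8, leaf (INFL-INJ) (helper94; tasks id 454):
`inflInjStatement : H29.InflInjStatement` — the inflation
`H²(Gal(K/k), Kˣ) → H²(Gal(K'/k), K'ˣ)` of `H88.inflOf k K K'` is injective.

With `S = Gal(K'/K) = H88.fixSubgroup k K K'`:
* `h2Iso : H²(Gal(K'/k) ⧸ S, (K'ˣ)^S) ≅ H²(Gal(K/k), Kˣ)` (Mathlib `mapIso` along
  `H88.quotGalEquiv` and `H88.unitsToInvariants`); its `hom` is `H88.quotH2`;
* `infl_eq` : the inflation of `inflOf` is `h2Iso⁻¹` followed by the abstract inflation;
* helper84's `H2InfRes_f_injective` (C1-c) with Hilbert 90 for `S` (helper15's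
  `isZero_H1_res_subtype`).
-/
import Mathlib
import Fermat.Agent.S55.H29.C8Hasse
import Fermat.Agent.S55.H84.InfRes2
import Fermat.Agent.S55.H15.Hilbert90Sub

set_option autoImplicit false

open CategoryTheory groupCohomology Rep

noncomputable section

namespace Fermat.Agent.S55.H94

open Fermat.Agent.S55.H88 Fermat.Agent.S55.H29

/-- Linear equivalences between the carriers of two representations, with their own module
structures (for `k = ℤ` this avoids competing instances on the carriers). -/
abbrev RepLinEquiv {k G H : Type} [CommRing k] [Monoid G] [Monoid H] (A : Rep.{0, 0, 0} k G)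
    (B : Rep.{0, 0, 0} k H) : Type := A.V ≃ₗ[k] B.V

section Iso

variable (k E K : Type) [Field k] [Field E] [Field K] [Algebra k E] [Algebra E K] [Algebra k K]
  [IsScalarTower k E K] [Normal k E] [IsGalois k K] [FiniteDimensional k K]

/-- `(Kˣ)^{Gal(K/E)} ≃ Eˣ`. -/
def invEquiv :
    RepLinEquiv ((Rep.ofAlgebraAutOnUnits k K).quotientToInvariants (fixSubgroup k E K))
      (Rep.ofAlgebraAutOnUnits k E) :=
  (LinearEquiv.ofBijective (unitsToInvariants k E K) (unitsToInvariants_bijective k E K)).symm

theorem invEquiv_symm_apply (u : Additive Eˣ) :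
    (invEquiv k E K).symm u = unitsToInvariants k E K u := rfl

theorem invEquiv_comm (g : (K ≃ₐ[k] K) ⧸ fixSubgroup k E K) :
    (invEquiv k E K).toLinearMap ∘ₗ
        ((Rep.ofAlgebraAutOnUnits k K).quotientToInvariants (fixSubgroup k E K)).ρ g
      = (Rep.ofAlgebraAutOnUnits k E).ρ (quotGalEquiv k E K g) ∘ₗ
        (invEquiv k E K).toLinearMap := by
  induction g using QuotientGroup.induction_on with
  | H σ =>
    refine LinearMap.ext fun v => ?_
    obtain ⟨u, rfl⟩ := (invEquiv k E K).symm.surjective v
    apply (invEquiv k E K).symm.injective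
    simp only [LinearMap.coe_comp, LinearEquiv.coe_coe, Function.comp_apply,
      LinearEquiv.apply_symm_apply, LinearEquiv.symm_apply_apply]
    refine Subtype.ext (congrArg Additive.ofMul (Units.ext ?_))
    show σ (algebraMap E K ((Additive.toMul u : Eˣ) : E))
      = algebraMap E K ((σ.restrictNormal E) ((Additive.toMul u : Eˣ) : E))
    exact (AlgEquiv.restrictNormal_commutes σ E _).symm

/-- `H²(Gal(K/k) ⧸ Gal(K/E), (Kˣ)^{Gal(K/E)}) ≅ H²(Gal(E/k), Eˣ)`. -/
def h2Iso :
    groupCohomology ((Rep.ofAlgebraAutOnUnits k K).quotientToInvariants (fixSubgroup k E K)) 2 ≅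
      groupCohomology (Rep.ofAlgebraAutOnUnits k E) 2 :=
  mapIso (quotGalEquiv k E K) (invEquiv k E K) (invEquiv_comm k E K) 2

/-- The inflation of `H88.inflOf` is the abstract inflation, up to the identification `h2Iso`. -/
theorem infl_eq :
    map (AlgEquiv.restrictNormalHom (F := k) (K₁ := K) E) (unitsInflHom k E K) 2
      = (h2Iso k E K).inv ≫
        map (QuotientGroup.mk' (fixSubgroup k E K))
          (ofHom <| (Rep.ofAlgebraAutOnUnits k K).ρ.quotientToInvariants_lift
            (fixSubgroup k E K)) 2 := by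
  rw [h2Iso, mapIso_inv, ← map_comp]
  exact map_congr (MonoidHom.ext fun σ => rfl) (by ext x; rfl) 2

/-- Inflation `H²(Gal(E/k), Eˣ) → H²(Gal(K/k), Kˣ)` is injective. -/
theorem infl_injective :
    Function.Injective
      (map (AlgEquiv.restrictNormalHom (F := k) (K₁ := K) E) (unitsInflHom k E K) 2).hom := by
  have h1 := Fermat.Agent.S55.H84.H2InfRes_f_injective (Rep.ofAlgebraAutOnUnits k K)
    (fixSubgroup k E K) (Fermat.Agent.S55.H15.isZero_H1_res_subtype (fixSubgroup k E K))
  have h2 : Function.Injective (h2Iso k E K).inv.hom :=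
    (ModuleCat.mono_iff_injective _).1 inferInstance
  rw [infl_eq]
  exact h1.comp h2

end Iso

/-- **Leaf (INFL-INJ)**, verbatim. -/
theorem inflInjStatement : InflInjStatement := by
  intro k K K' _ _ _ _ _ _ _ _ _ _ _ _
  have : FiniteDimensional k K' := Module.Finite.of_restrictScalars_finite ℚ k K'
  exact infl_injective k K K'

end Fermat.Agent.S55.H94
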